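import Mathlib

/-!
# S52, node [FBAR], abstract part (prefix `s52b_`)

`F / K` a field extension, `x : F`, `R : Finset F`, `f ∈ K[t][X]` a polynomial whose image under
`t ↦ x` splits in `F[X]` as `C lc * ∏ r ∈ R, (X - C r)`, `lc ≠ 0`, and `F = K(x, R)`.  Then

* `s52b_isIntegral`        : every `r ∈ R` is integral over `K⟮x⟯`;
* `s52b_finiteDimensional` : `F` is finite over `K⟮x⟯`;
* `s52b_isSplittingField`, `s52b_normal`, `s52b_isGalois` (char. 0): `F / K⟮x⟯` is Galois;
* `s52b_faithful`          : an automorphism of `F / K⟮x⟯` fixing `R` pointwise is the identity;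
* `s52b_pow_eq_one`        : if `σ ^ e` fixes `R` pointwise then `σ ^ e = 1`.
-/

set_option autoImplicit false
set_option linter.unusedSectionVars false
set_option linter.style.haveILetI false

open Polynomial IntermediateField

namespace Fermat.Agent.S52

variable {K F : Type*} [Field K] [Field F] [Algebra K F]

/-- the coefficient map `K[t] → K⟮x⟯`, `t ↦ x`. -/
noncomputable def s52b_coe (x : F) : K[X] →+* K⟮x⟯ :=
  (aeval (AdjoinSimple.gen K x) : K[X] →ₐ[K] K⟮x⟯).toRingHom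

theorem s52b_coe_comp (x : F) :
    (algebraMap K⟮x⟯ F).comp (s52b_coe (K := K) x) = (aeval x : K[X] →ₐ[K] F).toRingHom := by
  ext q
  · simp [s52b_coe]
  · simp [s52b_coe]

/-- the polynomial over `K⟮x⟯`. -/
noncomputable def s52b_poly (x : F) (f : K[X][X]) : K⟮x⟯[X] := f.map (s52b_coe x)

theorem s52b_poly_map (x : F) (f : K[X][X]) :
    (s52b_poly x f).map (algebraMap K⟮x⟯ F) = f.map (aeval x : K[X] →ₐ[K] F).toRingHom := by
  rw [s52b_poly, Polynomial.map_map, s52b_coe_comp]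

section

variable {x : F} {R : Finset F} {f : K[X][X]} {lc : F}

theorem s52b_poly_ne_zero (hlc : lc ≠ 0)
    (hsplit : f.map (aeval x : K[X] →ₐ[K] F).toRingHom = C lc * ∏ r ∈ R, (X - C r)) :
    s52b_poly x f ≠ 0 := by
  intro h0
  have h1 := s52b_poly_map x f
  rw [h0, Polynomial.map_zero, hsplit] at h1
  have h2 : (C lc * ∏ r ∈ R, (X - C r) : F[X]) ≠ 0 :=
    mul_ne_zero (C_ne_zero.2 hlc) (Finset.prod_ne_zero_iff.2 fun r _ => X_sub_C_ne_zero r)
  exact h2 h1.symm

theorem s52b_aeval_eq_zero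
    (hsplit : f.map (aeval x : K[X] →ₐ[K] F).toRingHom = C lc * ∏ r ∈ R, (X - C r))
    {r : F} (hr : r ∈ R) : aeval r (s52b_poly x f) = 0 := by
  rw [aeval_def, ← eval_map, s52b_poly_map, hsplit, eval_mul, eval_prod]
  have h0 : ∏ j ∈ R, eval r (X - C j) = 0 :=
    Finset.prod_eq_zero hr (by rw [eval_sub, eval_X, eval_C, sub_self])
  rw [h0, mul_zero]

/-- every `r ∈ R` is integral over `K⟮x⟯`. -/
theorem s52b_isIntegral (hlc : lc ≠ 0)
    (hsplit : f.map (aeval x : K[X] →ₐ[K] F).toRingHom = C lc * ∏ r ∈ R, (X - C r))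
    {r : F} (hr : r ∈ R) : IsIntegral K⟮x⟯ r :=
  IsAlgebraic.isIntegral ⟨s52b_poly x f, s52b_poly_ne_zero hlc hsplit, s52b_aeval_eq_zero hsplit hr⟩

theorem s52b_adjoin_eq_top (hgen : adjoin K (insert x (R : Set F)) = ⊤) :
    adjoin K⟮x⟯ (R : Set F) = ⊤ := by
  have h := adjoin_adjoin_left K (S := ({x} : Set F)) (R : Set F)
  rw [Set.singleton_union, hgen] at h
  exact restrictScalars_eq_top_iff.1 h

/-- `F` is finite over `K⟮x⟯`. -/
theorem s52b_finiteDimensional (hgen : adjoin K (insert x (R : Set F)) = ⊤) (hlc : lc ≠ 0)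
    (hsplit : f.map (aeval x : K[X] →ₐ[K] F).toRingHom = C lc * ∏ r ∈ R, (X - C r)) :
    FiniteDimensional K⟮x⟯ F := by
  have h1 : FiniteDimensional K⟮x⟯ (adjoin K⟮x⟯ (R : Set F)) :=
    finiteDimensional_adjoin fun r hr => s52b_isIntegral hlc hsplit (Finset.mem_coe.1 hr)
  rw [s52b_adjoin_eq_top hgen] at h1
  exact LinearEquiv.finiteDimensional (topEquiv (F := K⟮x⟯) (E := F)).toLinearEquiv

/-- `F` is a splitting field of `s52b_poly x f` over `K⟮x⟯`. -/
theorem s52b_isSplittingField (hgen : adjoin K (insert x (R : Set F)) = ⊤) (hlc : lc ≠ 0)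
    (hsplit : f.map (aeval x : K[X] →ₐ[K] F).toRingHom = C lc * ∏ r ∈ R, (X - C r)) :
    (s52b_poly x f).IsSplittingField K⟮x⟯ F := by
  refine ⟨?_, ?_⟩
  · rw [s52b_poly_map, hsplit]
    exact (Splits.prod fun r _ => Splits.X_sub_C r).C_mul lc
  · have hroot : (s52b_poly x f).rootSet F = (R : Set F) := by
      ext r
      rw [mem_rootSet_of_ne (s52b_poly_ne_zero hlc hsplit), Finset.mem_coe]
      constructor
      · intro h0
        rw [aeval_def, ← eval_map, s52b_poly_map, hsplit, eval_mul, eval_prod] at h0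
        rcases mul_eq_zero.1 h0 with h1 | h1
        · rw [eval_C] at h1
          exact absurd h1 hlc
        · obtain ⟨r', hr', h2⟩ := Finset.prod_eq_zero_iff.1 h1
          rw [eval_sub, eval_X, eval_C, sub_eq_zero] at h2
          rwa [h2]
      · exact fun hr => s52b_aeval_eq_zero hsplit hr
    rw [hroot, ← adjoin_toSubalgebra_of_isAlgebraic
      (fun r hr => (s52b_isIntegral hlc hsplit (Finset.mem_coe.1 hr)).isAlgebraic),
      s52b_adjoin_eq_top hgen]
    rfl

theorem s52b_normal (hgen : adjoin K (insert x (R : Set F)) = ⊤) (hlc : lc ≠ 0)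
    (hsplit : f.map (aeval x : K[X] →ₐ[K] F).toRingHom = C lc * ∏ r ∈ R, (X - C r)) :
    Normal K⟮x⟯ F :=
  haveI := s52b_isSplittingField hgen hlc hsplit
  Normal.of_isSplittingField (s52b_poly x f)

/-- `F / K⟮x⟯` is Galois (characteristic zero). -/
theorem s52b_isGalois [CharZero K] (hgen : adjoin K (insert x (R : Set F)) = ⊤) (hlc : lc ≠ 0)
    (hsplit : f.map (aeval x : K[X] →ₐ[K] F).toRingHom = C lc * ∏ r ∈ R, (X - C r)) :
    IsGalois K⟮x⟯ F := by
  haveI := s52b_normal hgen hlc hsplit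
  haveI := s52b_finiteDimensional hgen hlc hsplit
  haveI : CharZero K⟮x⟯ := charZero_of_injective_algebraMap (algebraMap K K⟮x⟯).injective
  exact ⟨⟩

/-- An automorphism of `F / K⟮x⟯` fixing `R` pointwise is the identity. -/
theorem s52b_faithful (hgen : adjoin K (insert x (R : Set F)) = ⊤) (σ : F ≃ₐ[K⟮x⟯] F)
    (hσ : ∀ r ∈ R, σ r = r) : σ = 1 := by
  ext z
  have hz : z ∈ adjoin K (insert x (R : Set F)) := by rw [hgen]; trivial
  rw [AlgEquiv.one_apply]
  induction hz using adjoin_induction with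
  | mem y hy =>
    rcases hy with rfl | hy
    · exact σ.commutes (AdjoinSimple.gen K y)
    · exact hσ y (Finset.mem_coe.1 hy)
  | algebraMap c =>
    exact σ.commutes (algebraMap K K⟮x⟯ c)
  | add y z _ _ hy hz => rw [map_add, hy, hz]
  | inv y _ hy => rw [map_inv₀, hy]
  | mul y z _ _ hy hz => rw [map_mul, hy, hz]

/-- If `σ ^ e` fixes `R` pointwise then `σ ^ e = 1`. -/
theorem s52b_pow_eq_one (hgen : adjoin K (insert x (R : Set F)) = ⊤) (σ : F ≃ₐ[K⟮x⟯] F) (e : ℕ)
    (hσ : ∀ r ∈ R, (σ ^ e) r = r) : σ ^ e = 1 :=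
  s52b_faithful hgen (σ ^ e) hσ

end

end Fermat.Agent.S52
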