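import Mathlib
import Fermat.Agent.S52.FBAR.Abstract

/-!
# S52, node [FBAR], concrete part (prefix `s52b_`)

`L / K` a field extension, `t : L` transcendental over `K`, `R : Finset L`, `f ∈ K[t][X]` with
`f(t, X) = lc * ∏ r ∈ R, (X - r)` in `L[X]`, `lc ≠ 0`.  Put `F̄ := s52b_F t R = K(t, R) ⊂ L`,
`x := s52b_x t R = t ∈ F̄`.  Then `x` is transcendental over `K`, `F̄ / K⟮x⟯` is finite Galois
(char. 0), the Galois group acts faithfully on `R`, and `F̄` is stable under every ring
automorphism of `L` fixing `t`, preserving `K` and `R`.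
-/

set_option autoImplicit false
set_option linter.unusedSectionVars false
set_option linter.style.haveILetI false

open Polynomial IntermediateField

namespace Fermat.Agent.S52

variable {K L : Type*} [Field K] [Field L] [Algebra K L]

/-- `F̄ = K(t, R) ⊂ L`. -/
def s52b_F (t : L) (R : Finset L) : IntermediateField K L := adjoin K (insert t (R : Set L))

theorem s52b_t_mem (t : L) (R : Finset L) : t ∈ s52b_F (K := K) t R :=
  subset_adjoin K _ (Set.mem_insert _ _)

theorem s52b_R_mem (t : L) (R : Finset L) {r : L} (hr : r ∈ R) : r ∈ s52b_F (K := K) t R :=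
  subset_adjoin K _ (Set.mem_insert_of_mem _ (Finset.mem_coe.2 hr))

/-- `t` as an element of `F̄`. -/
def s52b_x (t : L) (R : Finset L) : s52b_F (K := K) t R := ⟨t, s52b_t_mem t R⟩

/-- `R` as a finite subset of `F̄`. -/
noncomputable def s52b_R (t : L) (R : Finset L) : Finset (s52b_F (K := K) t R) :=
  haveI : DecidablePred (· ∈ s52b_F (K := K) t R) := Classical.decPred _
  R.subtype (· ∈ s52b_F (K := K) t R)

theorem s52b_mem_R (t : L) (R : Finset L) (z : s52b_F (K := K) t R) :
    z ∈ s52b_R (K := K) t R ↔ (z : L) ∈ R := by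
  classical
  rw [s52b_R]
  convert Finset.mem_subtype (p := (· ∈ s52b_F (K := K) t R)) (s := R) (a := z)

theorem s52b_transcendental {t : L} (ht : Transcendental K t) (R : Finset L) :
    Transcendental K (s52b_x (K := K) t R) := by
  rw [← transcendental_algebraMap_iff (A := L)
    (algebraMap (s52b_F (K := K) t R) L).injective]
  exact ht

/-- `F̄` is generated by `x` and `R`. -/
theorem s52b_gen (t : L) (R : Finset L) :
    adjoin K (insert (s52b_x (K := K) t R) (s52b_R (K := K) t R : Set (s52b_F (K := K) t R))) =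
      ⊤ := by
  apply lift_injective (s52b_F (K := K) t R)
  rw [lift_adjoin, lift_top, Set.image_insert_eq]
  have himg : (Subtype.val '' (s52b_R (K := K) t R : Set (s52b_F (K := K) t R)) : Set L) =
      (R : Set L) := by
    ext z
    constructor
    · rintro ⟨w, hw, rfl⟩
      exact Finset.mem_coe.2 ((s52b_mem_R t R w).1 (Finset.mem_coe.1 hw))
    · intro hz
      exact ⟨⟨z, s52b_R_mem t R (Finset.mem_coe.1 hz)⟩,
        Finset.mem_coe.2 ((s52b_mem_R t R _).2 (Finset.mem_coe.1 hz)), rfl⟩
  rw [himg]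
  rfl

section

variable {t : L} {R : Finset L} {f : K[X][X]} {lc : L}

theorem s52b_aeval_val (t : L) (R : Finset L) (q : K[X]) :
    ((aeval (s52b_x (K := K) t R) q : s52b_F (K := K) t R) : L) = aeval t q :=
  (IntermediateField.aeval_coe (s52b_F (K := K) t R) (s52b_x (K := K) t R) q).symm

theorem s52b_val_comp (t : L) (R : Finset L) :
    (algebraMap (s52b_F (K := K) t R) L).comp
      (aeval (s52b_x (K := K) t R) : K[X] →ₐ[K] s52b_F (K := K) t R).toRingHom =
      (aeval t : K[X] →ₐ[K] L).toRingHom := by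
  ext q
  · simp
  · simp [s52b_x]

/-- The leading coefficient lies in `F̄`. -/
theorem s52b_lc_mem
    (hsplit : f.map (aeval t : K[X] →ₐ[K] L).toRingHom = C lc * ∏ r ∈ R, (X - C r)) :
    lc ∈ s52b_F (K := K) t R := by
  have h1 : (C lc * ∏ r ∈ R, (X - C r) : L[X]).leadingCoeff = lc := by
    rw [leadingCoeff_mul, leadingCoeff_C, leadingCoeff_prod]
    simp
  rw [← h1, ← hsplit, leadingCoeff, coeff_map]
  have h2 : (aeval t : K[X] →ₐ[K] L).toRingHom
      (f.coeff (f.map (aeval t : K[X] →ₐ[K] L).toRingHom).natDegree) =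
      ((aeval (s52b_x (K := K) t R)
        (f.coeff (f.map (aeval t : K[X] →ₐ[K] L).toRingHom).natDegree) :
          s52b_F (K := K) t R) : L) := (s52b_aeval_val t R _).symm
  rw [h2]
  exact SetLike.coe_mem _

/-- The splitting relation inside `F̄[X]`. -/
theorem s52b_split
    (hsplit : f.map (aeval t : K[X] →ₐ[K] L).toRingHom = C lc * ∏ r ∈ R, (X - C r)) :
    f.map (aeval (s52b_x (K := K) t R) : K[X] →ₐ[K] s52b_F (K := K) t R).toRingHom =
      C (⟨lc, s52b_lc_mem hsplit⟩ : s52b_F (K := K) t R) *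
        ∏ r ∈ s52b_R (K := K) t R, (X - C r) := by
  classical
  apply Polynomial.map_injective (algebraMap (s52b_F (K := K) t R) L)
    (algebraMap (s52b_F (K := K) t R) L).injective
  rw [Polynomial.map_map, s52b_val_comp, hsplit, Polynomial.map_mul, Polynomial.map_C,
    Polynomial.map_prod]
  congr 1
  rw [s52b_R]
  have hmap : ∀ i : s52b_F (K := K) t R,
      Polynomial.map (algebraMap (s52b_F (K := K) t R) L) (X - C i) = X - C (i : L) := by
    intro i
    rw [Polynomial.map_sub, Polynomial.map_X, Polynomial.map_C]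
    rfl
  simp only [hmap]
  exact (Finset.prod_subtype_of_mem (fun r : L => (X - C r : L[X]))
    (fun r hr => s52b_R_mem t R hr)).symm

theorem s52b_lc_ne_zero (hlc : lc ≠ 0)
    (hsplit : f.map (aeval t : K[X] →ₐ[K] L).toRingHom = C lc * ∏ r ∈ R, (X - C r)) :
    (⟨lc, s52b_lc_mem hsplit⟩ : s52b_F (K := K) t R) ≠ 0 :=
  fun h => hlc (congrArg Subtype.val h)

/-- `F̄` is finite over `K⟮x⟯`. -/
theorem s52b_F_finiteDimensional (hlc : lc ≠ 0)
    (hsplit : f.map (aeval t : K[X] →ₐ[K] L).toRingHom = C lc * ∏ r ∈ R, (X - C r)) :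
    FiniteDimensional K⟮s52b_x (K := K) t R⟯ (s52b_F (K := K) t R) :=
  s52b_finiteDimensional (s52b_gen t R) (s52b_lc_ne_zero hlc hsplit) (s52b_split hsplit)

/-- `F̄ / K⟮x⟯` is Galois. -/
theorem s52b_F_isGalois [CharZero K] (hlc : lc ≠ 0)
    (hsplit : f.map (aeval t : K[X] →ₐ[K] L).toRingHom = C lc * ∏ r ∈ R, (X - C r)) :
    IsGalois K⟮s52b_x (K := K) t R⟯ (s52b_F (K := K) t R) :=
  s52b_isGalois (s52b_gen t R) (s52b_lc_ne_zero hlc hsplit) (s52b_split hsplit)

/-- The Galois group acts faithfully on `R`. -/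
theorem s52b_F_faithful (t : L) (R : Finset L)
    (σ : s52b_F (K := K) t R ≃ₐ[K⟮s52b_x (K := K) t R⟯] s52b_F (K := K) t R)
    (hσ : ∀ z : s52b_F (K := K) t R, (z : L) ∈ R → σ z = z) : σ = 1 :=
  s52b_faithful (s52b_gen t R) σ fun r hr => hσ r ((s52b_mem_R t R r).1 hr)

/-- `F̄` is stable under ring automorphisms of `L` fixing `t` and preserving `K` and `R`. -/
theorem s52b_F_stable (t : L) (R : Finset L) (γ : L ≃+* L) (hγt : γ t = t)
    (hγK : ∀ c : K, ∃ c' : K, γ (algebraMap K L c) = algebraMap K L c')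
    (hγR : ∀ r ∈ R, γ r ∈ R) {z : L} (hz : z ∈ s52b_F (K := K) t R) :
    γ z ∈ s52b_F (K := K) t R := by
  induction hz using adjoin_induction with
  | mem y hy =>
    rcases hy with rfl | hy
    · rw [hγt]; exact s52b_t_mem y R
    · exact s52b_R_mem t R (hγR y (Finset.mem_coe.1 hy))
  | algebraMap c =>
    obtain ⟨c', hc'⟩ := hγK c
    rw [hc']
    exact IntermediateField.algebraMap_mem _ c'
  | add y z _ _ hy hz => rw [map_add]; exact add_mem hy hz
  | inv y _ hy => rw [map_inv₀]; exact inv_mem hy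
  | mul y z _ _ hy hz => rw [map_mul]; exact mul_mem hy hz

end

end Fermat.Agent.S52
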